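import Mathlib

/-!
# Row LT, tower T7, leaf T7.L2.2.B6 = OFF-W (helper313): the abstract core (Mathlib only)

OFF-MAIN.  No new notion.  Every name ends in `313`.

* `inner_eq_zero_of_parseval313` (Hilbert space form): if `V` is an orthonormal family, the
  Parseval identity `∑_p |⟨V_p, x⟩|² = ‖x‖²` holds for ONE vector `x`, and `h` is orthogonal to
  every `V_p`, then `h` is orthogonal to `x`.
* `ip_eq_zero_of_parseval313` (function form): the same for square integrable functions on a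
  measure space with the pairing `∫ u · conj w`.
-/

set_option autoImplicit false

open MeasureTheory Filter Topology
open scoped ComplexConjugate InnerProductSpace

noncomputable section

namespace Fermat.Agent.LT.T7.H313

/-- The norm of the remainder of the partial Fourier sum. -/
theorem norm_sub_partial313 {H : Type*} [NormedAddCommGroup H] [InnerProductSpace ℂ H]
    {P : Type*} (V : P → H) (hV : Orthonormal ℂ V) (x : H) (s : Finset P) :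
    ‖x - ∑ p ∈ s, ⟪V p, x⟫_ℂ • V p‖ ^ 2 = ‖x‖ ^ 2 - ∑ p ∈ s, ‖⟪V p, x⟫_ℂ‖ ^ 2 := by
  classical
  have h₂ : (∑ i ∈ s, ∑ j ∈ s, ⟪V i, x⟫_ℂ * ⟪x, V j⟫_ℂ * ⟪V j, V i⟫_ℂ)
      = (∑ k ∈ s, ⟪V k, x⟫_ℂ * ⟪x, V k⟫_ℂ : ℂ) := hV.inner_left_right_finset
  have h₃ : ∀ z : ℂ, RCLike.re (z * conj z) = ‖z‖ ^ 2 := by
    intro z
    simp only [RCLike.mul_conj]
    norm_cast
  rw [@norm_sub_sq ℂ, sub_add]
  simp only [@InnerProductSpace.norm_sq_eq_re_inner ℂ H, inner_sum, sum_inner]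
  simp only [inner_smul_right, two_mul, inner_smul_left, inner_conj_symm, ← mul_assoc, h₂,
    add_sub_cancel_right, sub_right_inj]
  simp only [map_sum, ← inner_conj_symm x, ← h₃]

/-- **Hilbert space form.** -/
theorem inner_eq_zero_of_parseval313 {H : Type*} [NormedAddCommGroup H] [InnerProductSpace ℂ H]
    {P : Type*} (V : P → H) (hV : Orthonormal ℂ V) (x h : H)
    (hpars : HasSum (fun p => ‖⟪V p, x⟫_ℂ‖ ^ 2) (‖x‖ ^ 2))
    (hz : ∀ p, ⟪h, V p⟫_ℂ = 0) : ⟪h, x⟫_ℂ = 0 := by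
  classical
  have hin : ∀ s : Finset P, ⟪h, x⟫_ℂ = ⟪h, x - ∑ p ∈ s, ⟪V p, x⟫_ℂ • V p⟫_ℂ := by
    intro s
    rw [inner_sub_right, inner_sum]
    simp only [inner_smul_right, hz, mul_zero, Finset.sum_const_zero, sub_zero]
  have hbound : ∀ s : Finset P,
      ‖⟪h, x⟫_ℂ‖ ^ 2 ≤ ‖h‖ ^ 2 * (‖x‖ ^ 2 - ∑ p ∈ s, ‖⟪V p, x⟫_ℂ‖ ^ 2) := by
    intro s
    rw [← norm_sub_partial313 V hV x s]
    have h1 := norm_inner_le_norm (𝕜 := ℂ) h (x - ∑ p ∈ s, ⟪V p, x⟫_ℂ • V p)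
    rw [← hin s] at h1
    calc ‖⟪h, x⟫_ℂ‖ ^ 2 ≤ (‖h‖ * ‖x - ∑ p ∈ s, ⟪V p, x⟫_ℂ • V p‖) ^ 2 :=
          pow_le_pow_left₀ (norm_nonneg _) h1 2
      _ = ‖h‖ ^ 2 * ‖x - ∑ p ∈ s, ⟪V p, x⟫_ℂ • V p‖ ^ 2 := by ring
  have hlim : Tendsto (fun s : Finset P => ‖h‖ ^ 2 * (‖x‖ ^ 2 - ∑ p ∈ s, ‖⟪V p, x⟫_ℂ‖ ^ 2))
      atTop (𝓝 (‖h‖ ^ 2 * (‖x‖ ^ 2 - ‖x‖ ^ 2))) :=
    (tendsto_const_nhds.sub hpars).const_mul _
  have h0 : ‖⟪h, x⟫_ℂ‖ ^ 2 ≤ ‖h‖ ^ 2 * (‖x‖ ^ 2 - ‖x‖ ^ 2) := ge_of_tendsto' hlim hbound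
  rw [sub_self, mul_zero] at h0
  have h1 : ‖⟪h, x⟫_ℂ‖ ^ 2 = 0 := le_antisymm h0 (pow_nonneg (norm_nonneg _) 2)
  exact norm_eq_zero.1 ((pow_eq_zero_iff two_ne_zero).1 h1)

/-- The pairing `∫ u · conj w` of two square integrable functions is the inner product of
`L²`. -/
theorem ip_eq_inner313 {X : Type*} [MeasurableSpace X] (ν : Measure X) {u w : X → ℂ}
    (hu : MemLp u 2 ν) (hw : MemLp w 2 ν) :
    ∫ a, u a * conj (w a) ∂ν = ⟪hw.toLp w, hu.toLp u⟫_ℂ := by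
  rw [MeasureTheory.L2.inner_def]
  refine integral_congr_ae ?_
  filter_upwards [hu.coeFn_toLp, hw.coeFn_toLp] with a h1 h2
  rw [h1, h2, RCLike.inner_apply]

/-- **Function form.**  `v` an orthonormal family of square integrable functions, Parseval for
`x`, `h` square integrable with `∫ v_p · conj h = 0` for every `p`: then `∫ x · conj h = 0`. -/
theorem ip_eq_zero_of_parseval313 {X : Type*} [MeasurableSpace X] (ν : Measure X)
    {P : Type*} [DecidableEq P] (v : P → X → ℂ) (x h : X → ℂ)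
    (hv : ∀ p, MemLp (v p) 2 ν) (hx : MemLp x 2 ν) (hh : MemLp h 2 ν)
    (orth : ∀ p q, ∫ a, v p a * conj (v q a) ∂ν = if p = q then 1 else 0)
    (pars : HasSum (fun p => ‖∫ a, x a * conj (v p a) ∂ν‖ ^ 2)
      (∫ a, x a * conj (x a) ∂ν).re)
    (hz : ∀ p, ∫ a, v p a * conj (h a) ∂ν = 0) :
    ∫ a, x a * conj (h a) ∂ν = 0 := by
  set V : P → Lp ℂ 2 ν := fun p => (hv p).toLp (v p) with hVdef
  have hV : Orthonormal ℂ V := by
    rw [orthonormal_iff_ite]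
    intro p q
    have e1 : ⟪V p, V q⟫_ℂ = ∫ a, v q a * conj (v p a) ∂ν :=
      (ip_eq_inner313 ν (hv q) (hv p)).symm
    rw [e1, orth q p]
    by_cases hpq : p = q
    · rw [if_pos hpq, if_pos hpq.symm]
    · rw [if_neg hpq, if_neg (fun h' : q = p => hpq h'.symm)]
  have hnorm : ‖hx.toLp x‖ ^ 2 = (∫ a, x a * conj (x a) ∂ν).re := by
    rw [ip_eq_inner313 ν hx hx]
    exact (inner_self_eq_norm_sq (𝕜 := ℂ) (hx.toLp x)).symm
  have hpars : HasSum (fun p => ‖⟪V p, hx.toLp x⟫_ℂ‖ ^ 2) (‖hx.toLp x‖ ^ 2) := by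
    rw [hnorm]
    have e2 : (fun p => ‖⟪V p, hx.toLp x⟫_ℂ‖ ^ 2)
        = fun p => ‖∫ a, x a * conj (v p a) ∂ν‖ ^ 2 := by
      funext p
      have e1 : ⟪V p, hx.toLp x⟫_ℂ = ∫ a, x a * conj (v p a) ∂ν :=
        (ip_eq_inner313 ν hx (hv p)).symm
      rw [e1]
    rw [e2]
    exact pars
  have hz' : ∀ p, ⟪hh.toLp h, V p⟫_ℂ = 0 := by
    intro p
    have e1 : ⟪hh.toLp h, V p⟫_ℂ = ∫ a, v p a * conj (h a) ∂ν :=
      (ip_eq_inner313 ν (hv p) hh).symm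
    rw [e1]
    exact hz p
  rw [ip_eq_inner313 ν hx hh]
  exact inner_eq_zero_of_parseval313 V hV (hx.toLp x) (hh.toLp h) hpars hz'

end Fermat.Agent.LT.T7.H313

end
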