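import Mathlib
import Fermat.Agent.LT.T7.H561.BlocksSpec
import Fermat.Agent.LT.T1.H930.RsigCusp
import Fermat.Agent.LT.T1.H11.LocComp
import Fermat.Agent.LT.T1.H309.AdNorm
import Fermat.Agent.LT.T2.H981.ConvAdjT
import Fermat.Agent.LT.T2.H886.CuspAlg
import Fermat.Agent.LT.T7.H313.OffWCore

/-!
# Row LT, tower T7, leaf T7.L2.2.B6 = OFF-W (helper313): PROVED, unconditional

OFF-MAIN.  `offWC313 (K K') : H561.OffWC561 K K'` VERBATIM vs `T7/H561/BlocksSpec.lean` of
helper561@fa57d28b6 (sha256 5ceeaa4d32439a1f).  Every name of this file ends in `313`.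

Proof (the route of the docstring of the leaf).  `f = R(σ) e` is a cusp function of level `𝔑_g`
(asset helper930 `isCuspFn_Rsig930`, `IsCompData.aut`); `f = f₁ + f₂`, `f₁ ∈ W`, `f₂ ⊥ W`
(PROJ-up), `f₂` is a cusp function of level `𝔑_g` (`level_g`, asset helper886
`isCuspidalFn_sub886`); `R(φ') f₂ = 0` (KILL-up), so `R(φ') f = R(φ') f₁` (additivity);
`⟨R(φ') f₁, e⟩ = ⟨f₁, h⟩`, `h = R(φ'*) e` (asset helper981 `convAdj_core981` on the closed leaves
`locCompC_h11`, `adNormC309` of tower T1); `⟨v_p, h⟩ = ⟨R(φ') v_p, e⟩ = 0` (the hypothesis, `e ⊥ W`);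
`h` is bounded and measurable, `f₁` is the `L²`-limit of its partial Fourier sums in the
orthonormal family `v` (`IsWSpec561.complete`): `⟨f₁, h⟩ = 0` (`ip_eq_zero_of_parseval313`).
-/

set_option autoImplicit false

open AutomorphicForm IsDedekindDomain NumberField MeasureTheory
open scoped ComplexConjugate

noncomputable section

namespace Fermat.Agent.LT.T7.H313

open Fermat.Agent.LT Fermat.Agent.LT.H556 Fermat.Agent.LT.H556.A0 Fermat.Agent.LT.T7
open Fermat.Agent.LT.T7.H561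

attribute [local instance] Fermat.Agent.LT.T5.instMeasurableSpaceG

section OneField

variable {K : Type} [Field K] [NumberField K]

/-- `GL₂(𝔸_K)` with its Borel σ-algebra is a Borel space (local instance of this file). -/
local instance instBorelSpaceG313 : BorelSpace (G K) := ⟨rfl⟩

/-- The level group is monotone in the level. -/
theorem inLevelGroup_mono313 {𝔫 𝔪 : Ideal (𝓞 K)} (h : 𝔫 ≤ 𝔪) {u : G K}
    (hu : InLevelGroup 𝔫 u) : InLevelGroup 𝔪 u := by
  have hsub : ∀ v : HeightOneSpectrum (𝓞 K), idealClosure 𝔫 v ⊆ idealClosure 𝔪 v :=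
    fun v => closure_mono (Set.image_mono h)
  exact ⟨hu.1, fun v i j => ⟨hsub v (hu.2 v i j).1, hsub v (hu.2 v i j).2⟩⟩

/-- A cusp function of level `𝔪` is a cusp function of every smaller level. -/
theorem isCuspFn_level313 {𝔫 𝔪 : Ideal (𝓞 K)} (h : 𝔫 ≤ 𝔪) {τ : G K → ℂ} {r : G K}
    {e : G K → ℂ} (he : T5.IsCuspFn 𝔪 τ r e) : T5.IsCuspFn 𝔫 τ r e :=
  ⟨he.cont, he.bdd,
    ⟨he.aut.left_inv, fun u hu g => he.aut.level_inv u (inLevelGroup_mono313 h hu) g,
      he.aut.arch_compact, he.aut.ray⟩,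
    he.cuspidal⟩

/-- The difference of two cusp functions is a cusp function. -/
theorem isCuspFn_sub313 {𝔫 : Ideal (𝓞 K)} {τ : G K → ℂ} {r : G K} {e f : G K → ℂ}
    (he : T5.IsCuspFn 𝔫 τ r e) (hf : T5.IsCuspFn 𝔫 τ r f) :
    T5.IsCuspFn 𝔫 τ r (fun x => e x - f x) := by
  obtain ⟨C, hC⟩ := he.bdd
  obtain ⟨C', hC'⟩ := hf.bdd
  refine ⟨he.cont.sub hf.cont,
    ⟨C + C', fun g => (norm_sub_le _ _).trans (add_le_add (hC g) (hC' g))⟩,
    ⟨?_, ?_, ?_, ?_⟩,
    T2.H886.isCuspidalFn_sub886 he.cont hC hf.cont hC' he.cuspidal hf.cuspidal⟩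
  · intro γ g
    show e _ - f _ = e g - f g
    rw [he.aut.left_inv, hf.aut.left_inv]
  · intro u hu g
    show e _ - f _ = e g - f g
    rw [he.aut.level_inv u hu, hf.aut.level_inv u hu]
  · intro w k hk g
    show e _ - f _ = τ k * (e g - f g)
    rw [he.aut.arch_compact w k hk, hf.aut.arch_compact w k hk, mul_sub]
  · intro g
    show e _ - f _ = e g - f g
    rw [he.aut.ray, hf.aut.ray]

/-- The integrand of `R(φ) e` is integrable. -/
theorem integrable_Rconv313 {μ : Measure (G K)} [IsFiniteMeasureOnCompacts μ] {φ e : G K → ℂ}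
    (hφc : Continuous φ) (hφs : HasCompactSupport φ) (hec : Continuous e) (x : G K) :
    Integrable (fun y => φ y * e (x * y)) μ := by
  have hc : Continuous fun y => φ y * e (x * y) :=
    hφc.mul (hec.comp (continuous_const.mul continuous_id))
  exact hc.integrable_of_hasCompactSupport hφs.mul_right

/-- `R(φ)` is additive. -/
theorem Rconv_sub313 {μ : Measure (G K)} [IsFiniteMeasureOnCompacts μ] {φ e f : G K → ℂ}
    (hφc : Continuous φ) (hφs : HasCompactSupport φ) (hec : Continuous e) (hfc : Continuous f)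
    (x : G K) :
    T5.Rconv μ φ (fun y => e y - f y) x = T5.Rconv μ φ e x - T5.Rconv μ φ f x := by
  show ∫ y, φ y * (e (x * y) - f (x * y)) ∂μ
    = (∫ y, φ y * e (x * y) ∂μ) - ∫ y, φ y * f (x * y) ∂μ
  rw [← integral_sub (integrable_Rconv313 hφc hφs hec x) (integrable_Rconv313 hφc hφs hfc x)]
  refine integral_congr_ae (Filter.Eventually.of_forall fun y => ?_)
  show φ y * (e (x * y) - f (x * y)) = φ y * e (x * y) - φ y * f (x * y)
  rw [mul_sub]

/-- The frame of T2 of a frame of T5: same Haar measure, same fundamental domain. -/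
def frame313 {μ : Measure (G K)} {F : Set (G K)} (h : T5.IsFrame μ F) : T2.Frame K where
  μ := μ
  haar := h.haar
  D := F
  meas := h.meas
  sub := h.sub
  strict := h.strict
  fin := h.finite

/-- The inner product is conjugate symmetric. -/
theorem innerD_conj313 (μ : Measure (G K)) (F : Set (G K)) (a b : G K → ℂ) :
    T5.innerD μ F a b = conj (T5.innerD μ F b a) := by
  show ∫ x in F, a x * conj (b x) ∂μ = conj (∫ x in F, b x * conj (a x) ∂μ)
  rw [← integral_conj]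
  refine integral_congr_ae (Filter.Eventually.of_forall fun x => ?_)
  show a x * conj (b x) = conj (b x * conj (a x))
  rw [map_mul, Complex.conj_conj, mul_comm]

/-- **The adjoint of a convolution operator** on the automorphic functions (asset helper981). -/
theorem innerD_Rconv_adj313 {μ : Measure (G K)} {F : Set (G K)} (hF : T5.IsFrame μ F)
    {r : G K} (hr : T5.IsRayGen r) {𝔫 𝔫' : Ideal (𝓞 K)} {τ τ' : G K → ℂ} {φ ψ χ : G K → ℂ}
    (hφc : Continuous φ) (hφs : HasCompactSupport φ)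
    (hψ : T5.IsCuspFn 𝔫 τ r ψ) (hχ : T5.IsCuspFn 𝔫' τ' r χ) :
    T5.innerD μ F (T5.Rconv μ φ ψ) χ
      = T5.innerD μ F ψ (T2.conv (frame313 hF) (T2.adj φ) χ) := by
  have key := T2.H981.convAdj_core981 (T1.H11.locCompC_h11 K) (T1.H309.adNormC309 K)
    (frame313 hF) r (T2.H981.ray_central981 hr) (T2.H981.ray_nrm981 hr) φ ψ χ hφc hφs
    hψ.cont hψ.bdd hψ.aut.left_inv hψ.aut.ray hχ.cont hχ.bdd hχ.aut.left_inv hχ.aut.ray
  have e1 : T2.conv (frame313 hF) φ ψ = T5.Rconv μ φ ψ := by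
    funext x
    show ∫ h, ψ (x * h) * φ h ∂μ = ∫ y, φ y * ψ (x * y) ∂μ
    refine integral_congr_ae (Filter.Eventually.of_forall fun y => ?_)
    show ψ (x * y) * φ y = φ y * ψ (x * y)
    rw [mul_comm]
  rw [e1] at key
  exact key

/-- A bounded continuous function is square integrable on the fundamental domain. -/
theorem memLp_of_cont_bdd313 {μ : Measure (G K)} {F : Set (G K)} (hF : T5.IsFrame μ F)
    {ψ : G K → ℂ} (hc : Continuous ψ) (hb : ∃ C : ℝ, ∀ g : G K, ‖ψ g‖ ≤ C) :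
    MemLp ψ 2 (μ.restrict F) := by
  have : IsFiniteMeasure (μ.restrict F) :=
    ⟨by rw [Measure.restrict_apply_univ]; exact hF.finite⟩
  obtain ⟨C, hC⟩ := hb
  exact MemLp.of_bound hc.aestronglyMeasurable C (Filter.Eventually.of_forall hC)

/-- `R(φ*) χ` is square integrable on the fundamental domain. -/
theorem memLp_conv_adj313 {μ : Measure (G K)} {F : Set (G K)} (hF : T5.IsFrame μ F)
    {φ χ : G K → ℂ} (hφc : Continuous φ) (hφs : HasCompactSupport φ)
    (hχc : Continuous χ) (hχb : ∃ C : ℝ, ∀ g : G K, ‖χ g‖ ≤ C) :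
    MemLp (T2.conv (frame313 hF) (T2.adj φ) χ) 2 (μ.restrict F) := by
  obtain ⟨-, hLC, hT2, hSC⟩ := T1.H11.locCompC_h11 K
  have := hLC
  have := hT2
  have := hSC
  have := hF.haar
  have : IsFiniteMeasure (μ.restrict F) :=
    ⟨by rw [Measure.restrict_apply_univ]; exact hF.finite⟩
  obtain ⟨C, hC⟩ := hχb
  have hac : Continuous (T2.adj φ) :=
    Complex.continuous_conj.comp (hφc.comp continuous_inv)
  have has : HasCompactSupport (T2.adj φ) := by
    have h1 : HasCompactSupport (φ ∘ (Homeomorph.inv (G K))) :=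
      hφs.comp_homeomorph (Homeomorph.inv (G K))
    exact h1.comp_left (g := fun z : ℂ => conj z) (map_zero _)
  have hai : Integrable (T2.adj φ) μ := hac.integrable_of_hasCompactSupport has
  have hΦ : Continuous fun p : G K × G K => χ (p.1 * p.2) * T2.adj φ p.2 :=
    (hχc.comp (continuous_fst.mul continuous_snd)).mul (hac.comp continuous_snd)
  have hsf : SFinite μ := inferInstance
  have hsm : StronglyMeasurable (T2.conv (frame313 hF) (T2.adj φ) χ) :=
    StronglyMeasurable.integral_prod_right' (ν := μ) hΦ.stronglyMeasurable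
  refine MemLp.of_bound hsm.aestronglyMeasurable (C * ∫ y, ‖T2.adj φ y‖ ∂μ)
    (Filter.Eventually.of_forall fun x => ?_)
  show ‖∫ y, χ (x * y) * T2.adj φ y ∂μ‖ ≤ C * ∫ y, ‖T2.adj φ y‖ ∂μ
  rw [← integral_const_mul]
  refine norm_integral_le_of_norm_le (hai.norm.const_mul C)
    (Filter.Eventually.of_forall fun y => ?_)
  show ‖χ (x * y) * T2.adj φ y‖ ≤ C * ‖T2.adj φ y‖
  rw [norm_mul]
  exact mul_le_mul_of_nonneg_right (hC _) (norm_nonneg _)

end OneField

/-- **LEAF T7.L2.2.B6 = OFF-W.** -/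
theorem offWC313 (K K' : Type) [Field K] [NumberField K] [Field K'] [NumberField K']
    [Algebra K K'] : OffWC561 K K' := by
  classical
  intro ℓ _ _ _ Φ _ _ Dt hDt g hg ι n C v hW hH e he heW X hX k m
  have hcomp := hDt.comp g hg
  have hF : T5.IsFrame Dt.R'.μ Dt.R'.F := hcomp.frame'.frame
  have hr : T5.IsRayGen Dt.R'.r := hcomp.frame'.ray
  have haut : T5.AutPreserves Dt.s (Dt.𝔑 g) Dt.R'.μ Dt.R'.r := hcomp.aut
  have := hF.haar
  have hφ : T5.IsTestFn (Dt.𝔑 g) T5.trivType (Dt.φ' g X k m) :=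
    (hDt.ekprod_up g X k m hg hX).1
  -- `f = R(σ) e`
  have hf : T5.IsCuspFn (Dt.𝔑 g) T5.trivType Dt.R'.r (T5.Rsig Dt.s e) :=
    T1.H930.isCuspFn_Rsig930 haut (T1.H930.trivType_invariant930 Dt.s) he
  -- `f = f₁ + f₂`
  obtain ⟨f₁, hf₁W, hf₁⟩ := hDt.proj_up g hg _ hf
  have hf₁c : T5.IsCuspFn (Dt.𝔑 g) T5.trivType Dt.R'.r f₁ :=
    isCuspFn_level313 (hDt.level_g g hg) hf₁W.cusp
  have hf₂ := isCuspFn_sub313 hf hf₁c
  have hkill := hDt.kill_up g X k m hg hX _ hf₂ hf₁
  have hRf : T5.Rconv Dt.R'.μ (Dt.φ' g X k m) (T5.Rsig Dt.s e)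
      = T5.Rconv Dt.R'.μ (Dt.φ' g X k m) f₁ := by
    funext x
    have h1 := Rconv_sub313 (μ := Dt.R'.μ) hφ.cont hφ.supp hf.cont hf₁c.cont x
    rw [hkill x] at h1
    exact sub_eq_zero.1 h1.symm
  show T5.innerD Dt.R'.μ Dt.R'.F (T5.Rconv Dt.R'.μ (Dt.φ' g X k m) (T5.Rsig Dt.s e)) e = 0
  rw [hRf, innerD_Rconv_adj313 hF hr hφ.cont hφ.supp hf₁c he]
  -- the `L²` argument
  have hvW : ∀ p : Σ i, Fin (n i), IsEigFn Dt.𝔑₀ Dt.R'.r ℓ Dt.o (v p.1 p.2) (C p.1) :=
    fun p => (hW.basis p.1).eig p.2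
  refine ip_eq_zero_of_parseval313 (Dt.R'.μ.restrict Dt.R'.F)
    (fun p : Σ i, Fin (n i) => v p.1 p.2) f₁ _
    (fun p => memLp_of_cont_bdd313 hF (hvW p).inv.cusp.cont (hvW p).inv.cusp.bdd)
    (memLp_of_cont_bdd313 hF hf₁c.cont hf₁c.bdd)
    (memLp_conv_adj313 hF hφ.cont hφ.supp he.cont he.bdd) ?_ (hW.complete f₁ hf₁W) ?_
  · -- orthonormality
    rintro ⟨i, a⟩ ⟨i', a'⟩
    by_cases hii : i = i'
    · subst hii
      have h1 := (hW.basis i).orth a a'
      by_cases haa : a = a'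
      · subst haa
        rw [if_pos rfl] at h1
        rw [if_pos rfl]
        exact h1
      · rw [if_neg haa] at h1
        have hne : (⟨i, a⟩ : Σ i, Fin (n i)) ≠ ⟨i, a'⟩ :=
          fun h' => haa (eq_of_heq (Sigma.mk.inj h').2)
        rw [if_neg hne]
        exact h1
    · have hne : (⟨i, a⟩ : Σ i, Fin (n i)) ≠ ⟨i', a'⟩ :=
        fun h' => hii (Sigma.mk.inj h').1
      rw [if_neg hne]
      exact hW.orth i i' a a' hii
  · -- `⟨v_p, h⟩ = 0`
    intro p
    have h1 := innerD_Rconv_adj313 hF hr hφ.cont hφ.supp (hvW p).inv.cusp he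
    have h2 : T5.innerD Dt.R'.μ Dt.R'.F e (T5.Rconv Dt.R'.μ (Dt.φ' g X k m) (v p.1 p.2)) = 0 :=
      heW _ (hH X hX k m (v p.1 p.2) (C p.1) (hvW p))
    have h3 := innerD_conj313 Dt.R'.μ Dt.R'.F
      (T5.Rconv Dt.R'.μ (Dt.φ' g X k m) (v p.1 p.2)) e
    rw [h2, map_zero] at h3
    rw [h3] at h1
    exact h1.symm

end Fermat.Agent.LT.T7.H313

end
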